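/-
S33 programme, A-half, item (β) of helper3's msg 13315 (helper52): tensor plumbing over a
commutative ring `R` (`= ℤ_[p]` in the application) along a FLAT `R`-algebra `T`
(`T` finite free over `ℤ_[p]` in the application).  Mathlib only.

* `baseChange_injective` : `f` injective ⇒ `f.baseChange T` injective
  (`T ⊗ K' → T ⊗ M'` is injective for `K' ≤ M'`: `subtype_baseChange_injective`);
* `ker_baseChange` : `ker (β.baseChange T) = (ker β).baseChange T`
  (= `range ((ker β).subtype.baseChange T)`, `ker_baseChange_eq_range`);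
* `baseChange_apply_eq_zero_of_mem` : `f` kills `K'` ⇒ `f.baseChange T` kills `K'.baseChange T`
  (`baseChange_comp_subtype_eq_zero` in composition form);
* `mem_baseChange_ker_iff`, `baseChange_map_le`, `baseChange_le_comap` (stability of
  `K'.baseChange T` under `(ρ g).baseChange T` when `K'` is `ρ g`-stable);
* families: `piKer`, `mem_pi_baseChange_ker_iff` (the submodule `(T ⊗ K')^r` of `(T ⊗ M')^r`
  as the kernel of `(β.baseChange T)^r`);
* `quotBaseChangeEquiv` : `T ⊗ (M' ⧸ K') ≃ₗ[T] (T ⊗ M') ⧸ K'.baseChange T`;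
* `exists_composite` : LVL-COMPOSITE in abstract form (`Ψ₁ v i = lvl.baseChange T (Ψ₀ v i)`).
-/
import Mathlib

namespace Fermat.Agent.S33P.Tensor52

open TensorProduct

variable {R : Type*} [CommRing R] (T : Type*) [CommRing T] [Algebra R T]
variable {X Y Z : Type*} [AddCommGroup X] [Module R X] [AddCommGroup Y] [Module R Y]
  [AddCommGroup Z] [Module R Z]

section Flat

variable [Module.Flat R T]

/-- Base change along a flat algebra preserves injectivity. -/
theorem baseChange_injective (f : X →ₗ[R] Y) (hf : Function.Injective f) :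
    Function.Injective (f.baseChange T) :=
  Module.Flat.lTensor_preserves_injective_linearMap (M := T) f hf

/-- `T ⊗ K' → T ⊗ M'` is injective. -/
theorem subtype_baseChange_injective (K : Submodule R X) :
    Function.Injective (K.subtype.baseChange T) :=
  baseChange_injective T _ K.injective_subtype

/-- `ker (id_T ⊗ β) = range (T ⊗ ker β → T ⊗ M')`. -/
theorem ker_baseChange_eq_range (f : X →ₗ[R] Y) :
    LinearMap.ker (f.baseChange T) =
      LinearMap.range ((LinearMap.ker f).subtype.baseChange T) :=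
  Module.Flat.ker_lTensor_eq T T f

/-- `ker (id_T ⊗ β) = T ⊗ ker β` (as the submodule `(ker β).baseChange T` of `T ⊗ M'`). -/
theorem ker_baseChange (f : X →ₗ[R] Y) :
    LinearMap.ker (f.baseChange T) = (LinearMap.ker f).baseChange T :=
  ker_baseChange_eq_range T f

theorem mem_baseChange_ker_iff (f : X →ₗ[R] Y) (z : T ⊗[R] X) :
    z ∈ (LinearMap.ker f).baseChange T ↔ f.baseChange T z = 0 := by
  rw [← ker_baseChange, LinearMap.mem_ker]

/-- `T ⊗ K' ≃ K'.baseChange T` for flat `T`. -/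
noncomputable def baseChangeEquiv (K : Submodule R X) : T ⊗[R] K ≃ₗ[T] K.baseChange T :=
  LinearEquiv.ofInjective (K.subtype.baseChange T) (subtype_baseChange_injective T K)

@[simp]
theorem coe_baseChangeEquiv_tmul (K : Submodule R X) (t : T) (x : K) :
    ((baseChangeEquiv T K (t ⊗ₜ x) : K.baseChange T) : T ⊗[R] X) = t ⊗ₜ (x : X) := rfl

end Flat

section NoFlat

/-- If `f` kills `K'` then `f.baseChange T` kills `K'.baseChange T` (no flatness needed). -/
theorem baseChange_comp_subtype_eq_zero (f : X →ₗ[R] Y) (K : Submodule R X)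
    (hf : ∀ x ∈ K, f x = 0) :
    (f.baseChange T) ∘ₗ (K.subtype.baseChange T) = 0 := by
  rw [← LinearMap.baseChange_comp]
  have : f ∘ₗ K.subtype = 0 := by
    ext x
    exact hf x x.2
  rw [this, LinearMap.baseChange_zero]

theorem baseChange_apply_eq_zero_of_mem (f : X →ₗ[R] Y) (K : Submodule R X)
    (hf : ∀ x ∈ K, f x = 0) {z : T ⊗[R] X} (hz : z ∈ K.baseChange T) :
    f.baseChange T z = 0 := by
  obtain ⟨w, rfl⟩ := hz
  exact LinearMap.congr_fun (baseChange_comp_subtype_eq_zero T f K hf) w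

/-- `K' ≤ ker f ⇒ K'.baseChange T ≤ ker (f.baseChange T)`. -/
theorem baseChange_le_ker (f : X →ₗ[R] Y) (K : Submodule R X) (hK : K ≤ LinearMap.ker f) :
    K.baseChange T ≤ LinearMap.ker (f.baseChange T) := fun _ hz =>
  baseChange_apply_eq_zero_of_mem T f K (fun _ hx => hK hx) hz

/-- Functoriality of `Submodule.baseChange`: `f` maps `K` into `L` ⇒ `f.baseChange T` maps
`K.baseChange T` into `L.baseChange T`. -/
theorem baseChange_le_comap (f : X →ₗ[R] Y) (K : Submodule R X) (L : Submodule R Y)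
    (h : K ≤ L.comap f) : K.baseChange T ≤ (L.baseChange T).comap (f.baseChange T) := by
  rintro _ ⟨w, rfl⟩
  rw [Submodule.mem_comap]
  let g : K →ₗ[R] L := f.restrict (fun x hx => h hx)
  refine ⟨g.baseChange T w, ?_⟩
  rw [← LinearMap.comp_apply, ← LinearMap.comp_apply, ← LinearMap.baseChange_comp,
    ← LinearMap.baseChange_comp]
  congr 2

theorem baseChange_apply_mem (f : X →ₗ[R] Y) (K : Submodule R X) (L : Submodule R Y)
    (h : ∀ x ∈ K, f x ∈ L) {z : T ⊗[R] X} (hz : z ∈ K.baseChange T) :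
    f.baseChange T z ∈ L.baseChange T :=
  baseChange_le_comap T f K L (fun x hx => h x hx) hz

/-- Stability: a `ρ`-stable `K'` has a `ρ.baseChange T`-stable base change. -/
theorem baseChange_stable (ρ : X →ₗ[R] X) (K : Submodule R X) (h : ∀ x ∈ K, ρ x ∈ K)
    {z : T ⊗[R] X} (hz : z ∈ K.baseChange T) : ρ.baseChange T z ∈ K.baseChange T :=
  baseChange_apply_mem T ρ K K h hz

/-- `T ⊗ (M' ⧸ K') ≃ (T ⊗ M') ⧸ (T ⊗ K')`. -/
noncomputable def quotBaseChangeEquiv (K : Submodule R X) :
    T ⊗[R] (X ⧸ K) ≃ₗ[T] (T ⊗[R] X) ⧸ K.baseChange T :=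
  TensorProduct.AlgebraTensorModule.tensorQuotientEquiv T R T K ≪≫ₗ
    Submodule.quotEquivOfEq _ _ rfl

@[simp]
theorem quotBaseChangeEquiv_tmul_mk (K : Submodule R X) (t : T) (x : X) :
    quotBaseChangeEquiv T K (t ⊗ₜ Submodule.Quotient.mk x) = Submodule.Quotient.mk (t ⊗ₜ x) :=
  rfl

theorem quotBaseChangeEquiv_mkQ_baseChange (K : Submodule R X) (z : T ⊗[R] X) :
    quotBaseChangeEquiv T K (K.mkQ.baseChange T z) = Submodule.Quotient.mk z := by
  induction z using TensorProduct.induction_on with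
  | zero => simp
  | tmul t x => rfl
  | add a b ha hb => simp only [map_add, ha, hb, Submodule.Quotient.mk_add]

end NoFlat

section Families

variable [Module.Flat R T] {ι : Type*}

/-- The family version: the `T`-submodule `(T ⊗ K')^ι` of `(T ⊗ M')^ι`. -/
def piBaseChange (K : Submodule R X) (ι : Type*) : Submodule T (ι → T ⊗[R] X) :=
  Submodule.pi Set.univ (fun _ => K.baseChange T)

omit [Module.Flat R T] in
theorem mem_piBaseChange {K : Submodule R X} {z : ι → T ⊗[R] X} :
    z ∈ piBaseChange T K ι ↔ ∀ i, z i ∈ K.baseChange T := by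
  simp [piBaseChange, Submodule.mem_pi]

/-- `(β.baseChange T)^ι : (T ⊗ M')^ι → (T ⊗ M₂)^ι`. -/
noncomputable def piBaseChangeMap (f : X →ₗ[R] Y) (ι : Type*) :
    (ι → T ⊗[R] X) →ₗ[T] (ι → T ⊗[R] Y) :=
  LinearMap.pi (fun i => (f.baseChange T) ∘ₗ LinearMap.proj i)

omit [Module.Flat R T] in
@[simp]
theorem piBaseChangeMap_apply (f : X →ₗ[R] Y) (z : ι → T ⊗[R] X) (i : ι) :
    piBaseChangeMap T f ι z i = f.baseChange T (z i) := rfl

/-- `ker ((β.baseChange T)^ι) = (T ⊗ ker β)^ι`. -/
theorem ker_piBaseChangeMap (f : X →ₗ[R] Y) :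
    LinearMap.ker (piBaseChangeMap T f ι) = piBaseChange T (LinearMap.ker f) ι := by
  ext z
  rw [LinearMap.mem_ker, mem_piBaseChange]
  constructor
  · intro h i
    rw [mem_baseChange_ker_iff]
    exact congrFun h i
  · intro h
    funext i
    exact (mem_baseChange_ker_iff T f (z i)).1 (h i)

theorem mem_pi_baseChange_ker_iff (f : X →ₗ[R] Y) (z : ι → T ⊗[R] X) :
    (∀ i, z i ∈ (LinearMap.ker f).baseChange T) ↔ ∀ i, f.baseChange T (z i) = 0 :=
  forall_congr' fun i => mem_baseChange_ker_iff T f (z i)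

theorem piBaseChangeMap_injective (f : X →ₗ[R] Y) (hf : Function.Injective f) :
    Function.Injective (piBaseChangeMap T f ι) := by
  intro z w h
  funext i
  exact baseChange_injective T f hf (congrFun h i)

end Families

section Composite

variable [Module.Flat R T]

/-- **LVL-COMPOSITE, abstract form.**  Compose an equivariant `T`-linear embedding
`Ψ₀ : V → (T ⊗ X)^r` with the base change of an injective equivariant `R`-linear `lvl : X → Y`
(`T` flat over `R`): `Ψ₁ v i = lvl.baseChange T (Ψ₀ v i)` is again injective and equivariant. -/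
theorem exists_composite {V : Type*} [AddCommGroup V] [Module T V] {G : Type*}
    (actV : G → V → V) (ρX : G → X →ₗ[R] X) (ρY : G → Y →ₗ[R] Y)
    (lvl : X →ₗ[R] Y) (hlvl : Function.Injective lvl)
    (hlvlρ : ∀ g x, lvl (ρX g x) = ρY g (lvl x))
    {ι : Type*} (Ψ₀ : V →ₗ[T] (ι → T ⊗[R] X)) (hΨ₀ : Function.Injective Ψ₀)
    (hΨσ : ∀ g v i, Ψ₀ (actV g v) i = (ρX g).baseChange T (Ψ₀ v i)) :
    ∃ Ψ₁ : V →ₗ[T] (ι → T ⊗[R] Y), Function.Injective Ψ₁ ∧
      (∀ g v i, Ψ₁ (actV g v) i = (ρY g).baseChange T (Ψ₁ v i)) ∧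
      ∀ v i, Ψ₁ v i = lvl.baseChange T (Ψ₀ v i) := by
  refine ⟨(piBaseChangeMap T lvl ι) ∘ₗ Ψ₀,
    (piBaseChangeMap_injective T lvl hlvl).comp hΨ₀, ?_, fun _ _ => rfl⟩
  intro g v i
  have hcomm : lvl ∘ₗ ρX g = ρY g ∘ₗ lvl := LinearMap.ext (hlvlρ g)
  rw [LinearMap.comp_apply, LinearMap.comp_apply, piBaseChangeMap_apply, piBaseChangeMap_apply,
    hΨσ, ← LinearMap.comp_apply, ← LinearMap.baseChange_comp, hcomm, LinearMap.baseChange_comp,
    LinearMap.comp_apply]

end Composite

end Fermat.Agent.S33P.Tensor52
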