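/-
S33 programme, A-half, item (γ) of helper3's msg 13315 (helper52): coordinates.
For an `R`-basis `b : Basis (Fin d) R T` of a finite free `R`-algebra `T` (`R = ℤ_[p]`):

* `coordEquiv b X : T ⊗[R] X ≃ₗ[R] (Fin d → X)`, `coordEquiv_tmul`,
  natural in `X`: `coordEquiv_baseChange : coordEquiv b Y (f.baseChange T z) i = f (coordEquiv b X z i)`;
* `flattenEquiv : (Fin a → Fin c → X) ≃ₗ[R] (Fin (a * c) → X)` natural in `X`;
* `finCoord b r X : (Fin r → T ⊗[R] X) ≃ₗ[R] (Fin (r * d) → X)`, natural in `X`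
  (`finCoord_baseChange`);
* `exists_coord_embedding` : an injective `R`-linear (e.g. restriction of a `T`-linear)
  `Ψ : V → (Fin r → T ⊗[R] X)` equivariant for `(ρX g).baseChange T` gives an injective
  `Ψ' : V →ₗ[R] (Fin (r * d) → X)` equivariant for `ρX g` (what O4 = helper34's
  `hasFlatModel_quot_*` consumes); `exists_coord_embedding_of_free` chooses the basis.
* `exists_coord_embedding_pi` : the same with target `T ⊗[R] (Fin c → Y)` and the componentwise
  action, landing in `Fin (r * d * c) → Y`.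
-/
import Mathlib

namespace Fermat.Agent.S33P.Tensor52

open TensorProduct

variable {R : Type*} [CommRing R] {T : Type*} [CommRing T] [Algebra R T]
variable {d : ℕ} (b : Module.Basis (Fin d) R T)
variable (X : Type*) {Y : Type*} [AddCommGroup X] [Module R X] [AddCommGroup Y] [Module R Y]

/-- Coordinates of `T ⊗[R] X` with respect to an `R`-basis of `T`. -/
noncomputable def coordEquiv : T ⊗[R] X ≃ₗ[R] (Fin d → X) :=
  TensorProduct.equivFinsuppOfBasisLeft b ≪≫ₗ Finsupp.linearEquivFunOnFinite R X (Fin d)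

variable {X}

@[simp]
theorem coordEquiv_tmul (t : T) (x : X) (i : Fin d) :
    coordEquiv b X (t ⊗ₜ x) i = b.repr t i • x := by
  simp [coordEquiv]

theorem coordEquiv_symm_apply (c : Fin d → X) :
    (coordEquiv b X).symm c = ∑ i, b i ⊗ₜ[R] c i := by
  apply (coordEquiv b X).injective
  rw [LinearEquiv.apply_symm_apply]
  funext j
  rw [map_sum, Finset.sum_apply]
  simp only [coordEquiv_tmul, Module.Basis.repr_self]
  rw [Finset.sum_eq_single j]
  · simp
  · intro i _ hij
    simp [hij]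
  · intro h
    exact absurd (Finset.mem_univ j) h

/-- Naturality of the coordinates in `X`. -/
theorem coordEquiv_baseChange (f : X →ₗ[R] Y) (z : T ⊗[R] X) (i : Fin d) :
    coordEquiv b Y (f.baseChange T z) i = f (coordEquiv b X z i) := by
  induction z using TensorProduct.induction_on with
  | zero => simp
  | tmul t x => simp
  | add u v hu hv => simp only [map_add, Pi.add_apply, hu, hv]

/-- The `T`-action in coordinates is NOT diagonal, but scalars from `R` are. -/
theorem coordEquiv_smul (r : R) (z : T ⊗[R] X) (i : Fin d) :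
    coordEquiv b X (r • z) i = r • coordEquiv b X z i := by
  rw [map_smul, Pi.smul_apply]

/-- Flattening a double family. -/
noncomputable def flattenEquiv (a c : ℕ) (X : Type*) [AddCommGroup X] [Module R X] :
    (Fin a → Fin c → X) ≃ₗ[R] (Fin (a * c) → X) :=
  (LinearEquiv.curry R X (Fin a) (Fin c)).symm ≪≫ₗ
    LinearEquiv.funCongrLeft R X (finProdFinEquiv (m := a) (n := c)).symm

@[simp]
theorem flattenEquiv_apply (a c : ℕ) (z : Fin a → Fin c → X) (j : Fin (a * c)) :
    flattenEquiv (R := R) a c X z j =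
      z (finProdFinEquiv.symm j).1 (finProdFinEquiv.symm j).2 := rfl

theorem flattenEquiv_map (a c : ℕ) (f : X →ₗ[R] Y) (z : Fin a → Fin c → X) (j : Fin (a * c)) :
    flattenEquiv (R := R) a c Y (fun i k => f (z i k)) j = f (flattenEquiv (R := R) a c X z j) :=
  rfl

variable (X) in
/-- Coordinates of `(T ⊗[R] X)^r`. -/
noncomputable def finCoord (r : ℕ) : (Fin r → T ⊗[R] X) ≃ₗ[R] (Fin (r * d) → X) :=
  LinearEquiv.piCongrRight (fun _ : Fin r => coordEquiv b X) ≪≫ₗ flattenEquiv r d X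

@[simp]
theorem finCoord_apply (r : ℕ) (z : Fin r → T ⊗[R] X) (j : Fin (r * d)) :
    finCoord b X r z j =
      coordEquiv b X (z (finProdFinEquiv.symm j).1) (finProdFinEquiv.symm j).2 := rfl

/-- Naturality of `finCoord` in `X`. -/
theorem finCoord_baseChange (r : ℕ) (f : X →ₗ[R] Y) (z : Fin r → T ⊗[R] X) (j : Fin (r * d)) :
    finCoord b Y r (fun i => f.baseChange T (z i)) j = f (finCoord b X r z j) := by
  rw [finCoord_apply, finCoord_apply, coordEquiv_baseChange]

include b in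
/-- **Coordinates of an equivariant embedding.**  `V` an `R`-module with a set-theoretic action,
`Ψ : V →ₗ[R] (T ⊗ X)^r` injective and equivariant for `(ρX g).baseChange T`; then
`Ψ' := finCoord ∘ Ψ : V →ₗ[R] X^(r*d)` is injective and equivariant for `ρX g`. -/
theorem exists_coord_embedding {V : Type*} [AddCommGroup V] [Module R V] {G : Type*}
    (actV : G → V → V) (ρX : G → X →ₗ[R] X) {r : ℕ} (Ψ : V →ₗ[R] (Fin r → T ⊗[R] X))
    (hΨ : Function.Injective Ψ)
    (hΨσ : ∀ g v i, Ψ (actV g v) i = (ρX g).baseChange T (Ψ v i)) :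
    ∃ Ψ' : V →ₗ[R] (Fin (r * d) → X), Function.Injective Ψ' ∧
      ∀ g v j, Ψ' (actV g v) j = ρX g (Ψ' v j) := by
  refine ⟨(finCoord b X r).toLinearMap ∘ₗ Ψ, (finCoord b X r).injective.comp hΨ, ?_⟩
  intro g v j
  have h : Ψ (actV g v) = fun i => (ρX g).baseChange T (Ψ v i) := funext (hΨσ g v)
  rw [LinearMap.comp_apply, LinearMap.comp_apply, h]
  exact finCoord_baseChange b r (ρX g) (Ψ v) j

include b in
/-- The same for a `T`-linear `Ψ` on a `T`-module `V` (restriction of scalars built in). -/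
theorem exists_coord_embedding_tower {V : Type*} [AddCommGroup V] [Module R V] [Module T V]
    [IsScalarTower R T V] {G : Type*}
    (actV : G → V → V) (ρX : G → X →ₗ[R] X) {r : ℕ} (Ψ : V →ₗ[T] (Fin r → T ⊗[R] X))
    (hΨ : Function.Injective Ψ)
    (hΨσ : ∀ g v i, Ψ (actV g v) i = (ρX g).baseChange T (Ψ v i)) :
    ∃ Ψ' : V →ₗ[R] (Fin (r * d) → X), Function.Injective Ψ' ∧
      ∀ g v j, Ψ' (actV g v) j = ρX g (Ψ' v j) :=
  exists_coord_embedding b actV ρX (Ψ.restrictScalars R) hΨ hΨσ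

/-- Basis-free version: `T` finite free over `R`. -/
theorem exists_coord_embedding_of_free [Nontrivial R] [Module.Free R T] [Module.Finite R T]
    {V : Type*} [AddCommGroup V] [Module R V] {G : Type*}
    (actV : G → V → V) (ρX : G → X →ₗ[R] X) {r : ℕ} (Ψ : V →ₗ[R] (Fin r → T ⊗[R] X))
    (hΨ : Function.Injective Ψ)
    (hΨσ : ∀ g v i, Ψ (actV g v) i = (ρX g).baseChange T (Ψ v i)) :
    ∃ (r' : ℕ) (Ψ' : V →ₗ[R] (Fin r' → X)), Function.Injective Ψ' ∧
      ∀ g v j, Ψ' (actV g v) j = ρX g (Ψ' v j) := by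
  obtain ⟨Ψ', h1, h2⟩ := exists_coord_embedding (Module.finBasis R T) actV ρX Ψ hΨ hΨσ
  exact ⟨_, Ψ', h1, h2⟩

/-- Componentwise endomorphism of `Fin c → Y`. -/
def piEnd (c : ℕ) (f : Y →ₗ[R] Y) : (Fin c → Y) →ₗ[R] (Fin c → Y) :=
  LinearMap.pi (fun k => f ∘ₗ LinearMap.proj k)

@[simp]
theorem piEnd_apply (c : ℕ) (f : Y →ₗ[R] Y) (y : Fin c → Y) (k : Fin c) :
    piEnd c f y k = f (y k) := rfl

include b in
/-- Version with target `T ⊗[R] (Fin c → Y)` (e.g. `c = 2`, `Y = Ta_p J₀(N'/p)`) and the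
componentwise action on `Fin c → Y`: lands in `Fin (r * d * c) → Y`. -/
theorem exists_coord_embedding_pi {V : Type*} [AddCommGroup V] [Module R V] {G : Type*}
    (actV : G → V → V) (ρY : G → Y →ₗ[R] Y) {r c : ℕ}
    (Ψ : V →ₗ[R] (Fin r → T ⊗[R] (Fin c → Y))) (hΨ : Function.Injective Ψ)
    (hΨσ : ∀ g v i, Ψ (actV g v) i = (piEnd c (ρY g)).baseChange T (Ψ v i)) :
    ∃ Ψ' : V →ₗ[R] (Fin (r * d * c) → Y), Function.Injective Ψ' ∧
      ∀ g v j, Ψ' (actV g v) j = ρY g (Ψ' v j) := by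
  obtain ⟨Ψ1, h1, h2⟩ :=
    exists_coord_embedding b actV (fun g => piEnd c (ρY g)) Ψ hΨ hΨσ
  refine ⟨(flattenEquiv (R := R) (r * d) c Y).toLinearMap ∘ₗ Ψ1,
    (flattenEquiv (R := R) (r * d) c Y).injective.comp h1, ?_⟩
  intro g v j
  rw [LinearMap.comp_apply, LinearMap.comp_apply]
  have h : Ψ1 (actV g v) = fun i k => ρY g (Ψ1 v i k) := by
    funext i k
    rw [h2 g v i]
    rfl
  rw [h]
  exact flattenEquiv_map (r * d) c (ρY g) (Ψ1 v) j

end Fermat.Agent.S33P.Tensor52
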